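/-
PROJECT D (S48), part B, brick (iii)(2) of the lead's shortcut: NON-VANISHING, abstract half.
Mathlib only, hypothesis-first (helper17).

Setting of the consumer: `R = ℤ[t_p, s_d]` acts on the lattice `L = Hom_par(Γ₁(M), ℤ)` (finitely
generated over `ℤ`) and on the space `Mbar = S(O) / λ S(O)` of weight-two forms with `λ`-integral
`q`-expansion modulo `λ`; the period map (injective and `R`-equivariant) gives
`r L = 0 → r Mbar = 0`.  The class `hbar` of `f * G_ψ` is a nonzero common eigenvector in `Mbar`.

* `exists_ringHom_of_eigenvector` (A): a nonzero common eigenvector gives a ring homomorphism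
  `θ : R →+* F`.
* `exists_ne_zero_smul_eq_zero` (B): for a finite module `N` over a commutative ring and an ideal
  `I` with `I N ≠ N` there is `x ≠ 0` with `I x = 0` (finite induction, no localisation).
* `exists_not_mem_smul_mem` (C): for an `R`-module `L` finitely generated over `ℤ`, a natural
  number `ℓ` with `(ℓ : R) ∈ I`, `I` a proper ideal containing the annihilator of `L`:
  there is `x : L` outside `ℓ L` with `I x ⊆ ℓ L`  (Nakayama + (B)).
* `exists_character_and_torsion` (D): the two together, in the shape used by the consumer.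
-/
import Mathlib

set_option autoImplicit false

namespace Fermat.Agent.S48.B.NonVanish

/-! ### (A) a common eigenvector gives a character -/

section Eigen

variable {R F M : Type*} [CommRing R] [Field F] [AddCommGroup M] [Module F M]

/-- two scalars acting in the same way on a nonzero vector are equal -/
theorem eq_of_smul_eq_smul {h : M} (hh : h ≠ 0) {x y : F} (hxy : x • h = y • h) : x = y := by
  by_contra hne
  have h0 : (x - y) • h = 0 := by rw [sub_smul, hxy, sub_self]
  rcases smul_eq_zero.mp h0 with h1 | h1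
  · exact hne (sub_eq_zero.mp h1)
  · exact hh h1

/-- **(A)** A nonzero common eigenvector `h` of a commutative ring `R` acting `F`-linearly gives a
ring homomorphism `θ : R →+* F` with `r h = θ r • h`. -/
theorem exists_ringHom_of_eigenvector (a : R →+* Module.End F M) {h : M} (hh : h ≠ 0)
    (heig : ∀ r : R, ∃ c : F, a r h = c • h) :
    ∃ θ : R →+* F, ∀ r : R, a r h = θ r • h := by
  choose c hc using heig
  refine ⟨{ toFun := c, map_one' := ?_, map_mul' := ?_, map_zero' := ?_, map_add' := ?_ }, hc⟩
  · apply eq_of_smul_eq_smul hh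
    rw [← hc, map_one, one_smul, Module.End.one_apply]
  · intro r s
    apply eq_of_smul_eq_smul hh
    rw [← hc, map_mul, Module.End.mul_apply, hc s, map_smul, hc r, smul_smul, mul_comm]
  · apply eq_of_smul_eq_smul hh
    rw [← hc, map_zero, zero_smul, LinearMap.zero_apply]
  · intro r s
    apply eq_of_smul_eq_smul hh
    rw [← hc, map_add, LinearMap.add_apply, hc r, hc s, add_smul]

end Eigen

/-! ### (B) finite modules: `I N ≠ N` gives `I`-torsion -/

section Finite

variable {T N : Type*} [CommRing T] [AddCommGroup N] [Module T N]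

/-- multiplication by `a` as a `T`-linear endomorphism of `N` -/
def mulLin (a : T) : N →ₗ[T] N := LinearMap.lsmul T N a

theorem mulLin_apply (a : T) (x : N) : mulLin (T := T) (N := N) a x = a • x := rfl

/-- the induction behind **(B)**, over the submodules of a fixed finite module -/
theorem exists_ne_zero_smul_eq_zero_aux [Finite N] (I : Ideal T) :
    ∀ (n : ℕ) (P : Submodule T N), Nat.card P ≤ n → ¬ P ≤ I • P →
      ∃ x ∈ P, x ≠ 0 ∧ ∀ a ∈ I, a • x = 0 := by
  intro n
  induction n with
  | zero =>
    intro P hn _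
    exact absurd hn (by
      have : 0 < Nat.card P := Nat.card_pos
      omega)
  | succ n ih =>
    intro P hn hP
    by_cases hall : ∀ a ∈ I, ∀ x ∈ P, a • x = 0
    · -- `I` kills `P`, and `P ≠ 0`
      have hne : P ≠ ⊥ := by
        intro h0
        exact hP (h0 ▸ bot_le)
      obtain ⟨x, hxP, hx0⟩ := (Submodule.ne_bot_iff P).mp hne
      exact ⟨x, hxP, hx0, fun a ha => hall a ha x hxP⟩
    · -- some `a ∈ I` does not kill `P`
      have hex : ∃ a ∈ I, ∃ x0 ∈ P, a • x0 ≠ 0 := by
        by_contra hcon
        apply hall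
        intro a ha x hx
        by_contra hne
        exact hcon ⟨a, ha, x, hx, hne⟩
      obtain ⟨a, ha, x0, hx0P, hx0⟩ := hex
      -- the two smaller submodules
      have hJP : P.map (mulLin a) ≤ P := by
        rintro y ⟨x, hx, rfl⟩
        exact P.smul_mem a hx
      have hJI : P.map (mulLin a) ≤ I • P := by
        rintro y ⟨x, hx, rfl⟩
        exact Submodule.smul_mem_smul ha hx
      have hJne : P.map (mulLin a) ≠ P := by
        intro h
        exact hP (le_trans (le_of_eq h.symm) hJI)
      have hKP : P ⊓ LinearMap.ker (mulLin a) ≤ P := inf_le_left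
      have hKne : P ⊓ LinearMap.ker (mulLin (T := T) (N := N) a) ≠ P := by
        intro h
        have hmem : x0 ∈ P ⊓ LinearMap.ker (mulLin (T := T) (N := N) a) := by
          rw [h]
          exact hx0P
        exact hx0 (LinearMap.mem_ker.mp (Submodule.mem_inf.mp hmem).2)
      have hcardlt : ∀ Q : Submodule T N, Q ≤ P → Q ≠ P → Nat.card Q ≤ n := by
        intro Q hQP hQne
        have hlt : Q < P := lt_of_le_of_ne hQP hQne
        have hsub : (Q : Set N) ⊂ (P : Set N) := by
          exact_mod_cast hlt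
        have h1 : (Q : Set N).ncard < (P : Set N).ncard :=
          Set.ncard_lt_ncard hsub (Set.toFinite _)
        have h2 : Nat.card Q = (Q : Set N).ncard := Nat.card_coe_set_eq _
        have h3 : Nat.card P = (P : Set N).ncard := Nat.card_coe_set_eq _
        omega
      by_cases hJ : P.map (mulLin a) ≤ I • P.map (mulLin a)
      · -- then `K = P ∩ ker a` inherits the hypothesis
        have hK : ¬ P ⊓ LinearMap.ker (mulLin (T := T) (N := N) a) ≤
            I • (P ⊓ LinearMap.ker (mulLin (T := T) (N := N) a)) := by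
          intro hK
          apply hP
          intro x hx
          have h1 : mulLin a x ∈ I • P.map (mulLin a) := hJ ⟨x, hx, rfl⟩
          rw [← Submodule.map_smul''] at h1
          obtain ⟨y, hy, hyx⟩ := h1
          have hyP : y ∈ P := Submodule.smul_le_right hy
          have hxy : x - y ∈ P ⊓ LinearMap.ker (mulLin (T := T) (N := N) a) := by
            refine Submodule.mem_inf.mpr ⟨P.sub_mem hx hyP, ?_⟩
            rw [LinearMap.mem_ker, map_sub, hyx, sub_self]
          have h2 : x - y ∈ I • P := Submodule.smul_mono le_rfl hKP (hK hxy)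
          have : x = (x - y) + y := by abel
          rw [this]
          exact (I • P).add_mem h2 hy
        obtain ⟨x, hxK, hx0', hxI⟩ := ih _ (hcardlt _ hKP hKne) hK
        exact ⟨x, hKP hxK, hx0', hxI⟩
      · obtain ⟨x, hxJ, hx0', hxI⟩ := ih _ (hcardlt _ hJP hJne) hJ
        exact ⟨x, hJP hxJ, hx0', hxI⟩

/-- **(B)** For a finite module `N` over a commutative ring and an ideal `I` with `I N ≠ N` there
is a nonzero `x` killed by `I`. -/
theorem exists_ne_zero_smul_eq_zero [Finite N] (I : Ideal T)
    (hN : (I • (⊤ : Submodule T N)) ≠ ⊤) : ∃ x : N, x ≠ 0 ∧ ∀ a ∈ I, a • x = 0 := by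
  obtain ⟨x, _, hx0, hx⟩ := exists_ne_zero_smul_eq_zero_aux I (Nat.card (⊤ : Submodule T N)) ⊤
    le_rfl (fun h => hN (le_antisymm le_top h))
  exact ⟨x, hx0, hx⟩

end Finite

/-! ### (C) lattices: Nakayama + (B) -/

section Lattice

variable {R L : Type*} [CommRing R] [AddCommGroup L] [Module R L]

/-- **(C)** Let `L` be an `R`-module, finitely generated as an abelian group, `ℓ ≠ 0` a natural
number and `I` a proper ideal of `R` containing `ℓ` and the annihilator of `L`.  Then some
`x : L` outside `ℓ L` has `I x ⊆ ℓ L`: the `I`-torsion of `L / ℓ L` is nonzero. -/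
theorem exists_not_mem_smul_mem [Module.Finite ℤ L] {ℓ : ℕ} (hℓ : ℓ ≠ 0) (I : Ideal R)
    (hI : I ≠ ⊤) (hℓI : (ℓ : R) ∈ I) (hann : ∀ r : R, (∀ x : L, r • x = 0) → r ∈ I) :
    ∃ x : L, (¬ ∃ y : L, x = ℓ • y) ∧ ∀ r ∈ I, ∃ y : L, r • x = ℓ • y := by
  classical
  -- the submodule `ℓ L`
  let Z : Submodule R L := LinearMap.range (mulLin (T := R) (N := L) (ℓ : R))
  have hZ : ∀ x : L, x ∈ Z ↔ ∃ y : L, x = ℓ • y := by
    intro x
    constructor
    · rintro ⟨y, rfl⟩
      exact ⟨y, by rw [mulLin_apply, Nat.cast_smul_eq_nsmul]⟩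
    · rintro ⟨y, rfl⟩
      exact ⟨y, by rw [mulLin_apply, Nat.cast_smul_eq_nsmul]⟩
  -- `L / ℓ L` is finite
  have hfinR : Module.Finite R L := Module.Finite.of_restrictScalars_finite ℤ R L
  have hfinQ : Module.Finite ℤ (L ⧸ Z) := Module.Finite.of_surjective (Z.mkQ.restrictScalars ℤ)
    (Submodule.mkQ_surjective Z)
  have htors : Module.IsTorsion ℤ (L ⧸ Z) := by
    intro x
    obtain ⟨y, rfl⟩ := Submodule.mkQ_surjective Z x
    refine ⟨⟨(ℓ : ℤ), ?_⟩, ?_⟩
    · rw [mem_nonZeroDivisors_iff_ne_zero]
      exact_mod_cast hℓ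
    · show (ℓ : ℤ) • Z.mkQ y = 0
      rw [← map_zsmul, Submodule.mkQ_apply, Submodule.Quotient.mk_eq_zero, hZ]
      exact ⟨y, by rw [natCast_zsmul]⟩
  have hfin : Finite (L ⧸ Z) := Module.finite_of_fg_torsion (L ⧸ Z) htors
  -- `I (L / ℓ L) ≠ L / ℓ L` by Nakayama
  have hN : (I • (⊤ : Submodule R (L ⧸ Z))) ≠ ⊤ := by
    intro htop
    have h1 : (⊤ : Submodule R L) ≤ I • (⊤ : Submodule R L) := by
      intro x _
      have hx : Z.mkQ x ∈ I • (⊤ : Submodule R (L ⧸ Z)) := by
        rw [htop]
        exact Submodule.mem_top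
      have hmap : I • (⊤ : Submodule R (L ⧸ Z)) = (I • (⊤ : Submodule R L)).map Z.mkQ := by
        rw [Submodule.map_smul'', Submodule.map_top, Submodule.range_mkQ]
      rw [hmap] at hx
      obtain ⟨y, hy, hyx⟩ := hx
      have hxy : x - y ∈ Z := by
        rw [← Submodule.Quotient.mk_eq_zero, Submodule.Quotient.mk_sub]
        rw [Submodule.mkQ_apply, Submodule.mkQ_apply] at hyx
        rw [hyx, sub_self]
      obtain ⟨z, hz⟩ := hxy
      have hzI : x - y ∈ I • (⊤ : Submodule R L) := by
        rw [← hz, mulLin_apply]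
        exact Submodule.smul_mem_smul hℓI Submodule.mem_top
      have : x = (x - y) + y := by abel
      rw [this]
      exact (I • (⊤ : Submodule R L)).add_mem hzI hy
    obtain ⟨r, hr1, hr0⟩ := Submodule.exists_sub_one_mem_and_smul_eq_zero_of_fg_of_le_smul I
      (⊤ : Submodule R L) (Module.finite_def.mp hfinR) h1
    have hrI : r ∈ I := hann r (fun x => hr0 x Submodule.mem_top)
    apply hI
    rw [Ideal.eq_top_iff_one]
    have : (1 : R) = r - (r - 1) := by ring
    rw [this]
    exact I.sub_mem hrI hr1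
  obtain ⟨xbar, hx0, hxI⟩ := exists_ne_zero_smul_eq_zero I hN
  obtain ⟨x, rfl⟩ := Submodule.mkQ_surjective Z xbar
  refine ⟨x, ?_, ?_⟩
  · rw [← hZ]
    intro hxZ
    apply hx0
    rw [Submodule.mkQ_apply, Submodule.Quotient.mk_eq_zero]
    exact hxZ
  · intro r hr
    rw [← hZ]
    have := hxI r hr
    rw [← map_smul, Submodule.mkQ_apply, Submodule.Quotient.mk_eq_zero] at this
    exact this

end Lattice

/-! ### (D) the combination -/

section Main

variable {R L F M : Type*} [CommRing R] [AddCommGroup L] [Module R L] [Field F]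
  [AddCommGroup M] [Module F M]

/-- **(D)** `R` acts on a lattice `L` (finitely generated over `ℤ`) and `F`-linearly on `M`
(`F` a field in which `ℓ = 0`), and every `r` killing `L` kills `M`.  A nonzero common
eigenvector `h : M` gives a character `θ : R →+* F` with `r h = θ r • h`, and an `x : L` outside
`ℓ L` such that `r x ∈ ℓ L` for every `r` in the kernel of `θ`. -/
theorem exists_character_and_torsion [Module.Finite ℤ L] {ℓ : ℕ} (hℓ : ℓ ≠ 0)
    (hℓF : (ℓ : F) = 0) (a : R →+* Module.End F M)
    (hann : ∀ r : R, (∀ x : L, r • x = 0) → ∀ y : M, a r y = 0)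
    {h : M} (hh : h ≠ 0) (heig : ∀ r : R, ∃ c : F, a r h = c • h) :
    ∃ θ : R →+* F, (∀ r : R, a r h = θ r • h) ∧
      ∃ x : L, (¬ ∃ y : L, x = ℓ • y) ∧ ∀ r : R, θ r = 0 → ∃ y : L, r • x = ℓ • y := by
  obtain ⟨θ, hθ⟩ := exists_ringHom_of_eigenvector a hh heig
  refine ⟨θ, hθ, ?_⟩
  have hI : RingHom.ker θ ≠ ⊤ := RingHom.ker_ne_top θ
  have hℓI : (ℓ : R) ∈ RingHom.ker θ := by
    rw [RingHom.mem_ker, map_natCast, hℓF]
  have hann' : ∀ r : R, (∀ x : L, r • x = 0) → r ∈ RingHom.ker θ := by
    intro r hr
    rw [RingHom.mem_ker]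
    have h0 : θ r • h = 0 := by rw [← hθ r]; exact hann r hr h
    rcases smul_eq_zero.mp h0 with h1 | h1
    · exact h1
    · exact absurd h1 hh
  obtain ⟨x, hx, hxI⟩ := exists_not_mem_smul_mem hℓ (RingHom.ker θ) hI hℓI hann'
  exact ⟨x, hx, fun r hr => hxI r ((RingHom.mem_ker).mpr hr)⟩

end Main

end Fermat.Agent.S48.B.NonVanish
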