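import Mathlib

set_option autoImplicit false

noncomputable section

namespace Fermat.Agent.S48.B.QuadRel

open Polynomial

/-! ### 1. the quadratic relation passes to powers and to conjugates -/

theorem rel_pow {k A : Type*} [CommRing k] [Ring A] [Algebra k A] (x : A) (t d : k)
    (h : x * x - t • x + d • 1 = 0) (j : ℕ) :
    ∃ t' : k, x ^ j * x ^ j - t' • x ^ j + d ^ j • 1 = 0 := by
  have hxx : t • x - x * x = d • 1 := by
    calc t • x - x * x = d • 1 - (x * x - t • x + d • 1) := by abel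
      _ = d • 1 := by rw [h, sub_zero]
  set y : A := t • 1 - x with hy
  have hxy : x * y = d • 1 := by
    rw [hy, mul_sub, mul_smul_comm, mul_one, hxx]
  have hyx : y * x = d • 1 := by
    rw [hy, sub_mul, smul_mul_assoc, one_mul, hxx]
  have hsum : x + y = t • 1 := by rw [hy]; abel
  have key : ∀ j : ℕ, (∃ s : k, x ^ j + y ^ j = s • 1) ∧
      (∃ s : k, x ^ (j + 1) + y ^ (j + 1) = s • 1) := by
    intro j
    induction j with
    | zero =>
      refine ⟨⟨2, ?_⟩, ⟨t, ?_⟩⟩
      · rw [pow_zero, pow_zero, two_smul]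
      · rw [zero_add, pow_one, pow_one, hsum]
    | succ j ih =>
      obtain ⟨⟨s0, h0⟩, ⟨s1, h1⟩⟩ := ih
      refine ⟨⟨s1, h1⟩, ⟨t * s1 - d * s0, ?_⟩⟩
      have e1 : x ^ (j + 1 + 1) + y ^ (j + 1 + 1) =
          (x + y) * (x ^ (j + 1) + y ^ (j + 1)) - (x * y) * y ^ j - (y * x) * x ^ j := by
        rw [pow_succ' x (j + 1), pow_succ' y (j + 1), add_mul, mul_add, mul_add,
          pow_succ' y j, pow_succ' x j, mul_assoc x y, mul_assoc y x]
        abel
      rw [e1, h1, hxy, hyx, hsum, smul_mul_assoc, one_mul, smul_mul_assoc, one_mul,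
        smul_mul_assoc, one_mul, sub_sub, ← smul_add, add_comm (y ^ j), h0, smul_smul,
        smul_smul, sub_smul]
  obtain ⟨s, hs⟩ := (key j).1
  refine ⟨s, ?_⟩
  have hcomm : Commute y x := by rw [Commute, SemiconjBy, hyx, hxy]
  have hyj : y ^ j * x ^ j = d ^ j • 1 := by
    rw [← hcomm.mul_pow, hyx, _root_.smul_pow, one_pow]
  have e2 : s • x ^ j = x ^ j * x ^ j + y ^ j * x ^ j := by
    rw [← add_mul, hs, smul_mul_assoc, one_mul]
  rw [e2, hyj]
  abel

theorem rel_conj {k A : Type*} [CommRing k] [Ring A] [Algebra k A] (a b x : A)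
    (hba : b * a = 1) (hab : a * b = 1) (t d : k) (h : x * x - t • x + d • 1 = 0) :
    (a * x * b) * (a * x * b) - t • (a * x * b) + d • 1 = 0 := by
  have e1 : a * x * b * (a * x * b) = a * (x * x) * b := by
    calc a * x * b * (a * x * b) = a * x * (b * a) * x * b := by simp only [mul_assoc]
      _ = a * (x * x) * b := by rw [hba, mul_one]; simp only [mul_assoc]
  have e2 : (a * x * b) * (a * x * b) - t • (a * x * b) + d • 1 =
      a * (x * x - t • x + d • 1) * b := by
    rw [mul_add, mul_sub, add_mul, sub_mul, mul_smul_comm, smul_mul_assoc, mul_smul_comm,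
      smul_mul_assoc, mul_one, hab, e1]
  rw [e2, h, mul_zero, zero_mul]

theorem rel_all {k : Type*} [Field k] {Γ : Type*} [Group Γ] {V : Type*} [AddCommGroup V]
    [Module k V] (ρ : Γ →* Module.End k V) (δ : Γ →* kˣ) (S : Set Γ)
    (hS : ∀ g : Γ, ∃ φ ∈ S, ∃ (j : ℕ) (τ : Γ), ρ g = ρ (τ * φ ^ j * τ⁻¹) ∧ δ g = δ φ ^ j)
    (hrel : ∀ φ ∈ S, ∃ t : k, ρ φ * ρ φ - t • ρ φ + ((δ φ : kˣ) : k) • 1 = 0) (g : Γ) :
    ∃ t : k, ρ g * ρ g - t • ρ g + ((δ g : kˣ) : k) • 1 = 0 := by
  obtain ⟨φ, hφ, j, τ, h1, h2⟩ := hS g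
  obtain ⟨t, ht⟩ := hrel φ hφ
  obtain ⟨t', ht'⟩ := rel_pow (ρ φ) t _ ht j
  refine ⟨t', ?_⟩
  have h3 := rel_conj (ρ τ) (ρ τ⁻¹) (ρ φ ^ j)
    (by rw [← map_mul, inv_mul_cancel, map_one]) (by rw [← map_mul, mul_inv_cancel, map_one])
    t' _ ht'
  rw [h1, h2, map_mul, map_mul, map_pow, Units.val_pow_eq_pow_val]
  exact h3
/-! ### 2. the correspondence `x ↦ x* = δ(g) g⁻¹`, kept upstairs as a subspace of pairs -/

section Corr

variable {k : Type*} [Field k] {Γ : Type*} [Group Γ] {W : Type*} [AddCommGroup W] [Module k W]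
  (ρ : Γ →* Module.End k W) (δ : Γ →* kˣ)

/-- the span of the pairs `(ρ g, δ(g) ρ(g⁻¹))` -/
def corr : Submodule k (Module.End k W × Module.End k W) :=
  Submodule.span k (Set.range fun g : Γ => ((ρ g, ((δ g : kˣ) : k) • ρ g⁻¹) :
    Module.End k W × Module.End k W))

theorem gen_mem_corr (g : Γ) : (ρ g, ((δ g : kˣ) : k) • ρ g⁻¹) ∈ corr ρ δ :=
  Submodule.subset_span ⟨g, rfl⟩

variable {ρ δ}

theorem corr_swap {p : Module.End k W × Module.End k W} (hp : p ∈ corr ρ δ) :
    (p.2, p.1) ∈ corr ρ δ := by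
  induction hp using Submodule.span_induction with
  | mem p hp =>
    obtain ⟨g, rfl⟩ := hp
    have e : ((((δ g : kˣ) : k) • ρ g⁻¹, ρ g) : Module.End k W × Module.End k W) =
        ((δ g : kˣ) : k) • (ρ g⁻¹, ((δ g⁻¹ : kˣ) : k) • ρ (g⁻¹)⁻¹) := by
      rw [Prod.smul_mk, smul_smul, inv_inv, map_inv δ g, Units.mul_inv, one_smul]
    show ((((δ g : kˣ) : k) • ρ g⁻¹, ρ g) : Module.End k W × Module.End k W) ∈ corr ρ δ
    rw [e]
    exact Submodule.smul_mem _ _ (gen_mem_corr ρ δ g⁻¹)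
  | zero => exact Submodule.zero_mem _
  | add p q _ _ hp hq => exact Submodule.add_mem _ hp hq
  | smul c p _ hp => exact Submodule.smul_mem _ c hp

theorem corr_mul {p q : Module.End k W × Module.End k W} (hp : p ∈ corr ρ δ)
    (hq : q ∈ corr ρ δ) : (p.1 * q.1, q.2 * p.2) ∈ corr ρ δ := by
  induction hp using Submodule.span_induction with
  | mem p hp =>
    obtain ⟨g, rfl⟩ := hp
    induction hq using Submodule.span_induction with
    | mem q hq =>
      obtain ⟨h, rfl⟩ := hq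
      have e : ((ρ g * ρ h, (((δ h : kˣ) : k) • ρ h⁻¹) * (((δ g : kˣ) : k) • ρ g⁻¹)) :
          Module.End k W × Module.End k W) =
          (ρ (g * h), ((δ (g * h) : kˣ) : k) • ρ (g * h)⁻¹) := by
        rw [map_mul, map_mul, mul_inv_rev, map_mul, Units.val_mul, smul_mul_smul_comm,
          mul_comm ((δ h : kˣ) : k)]
      show ((ρ g * ρ h, (((δ h : kˣ) : k) • ρ h⁻¹) * (((δ g : kˣ) : k) • ρ g⁻¹)) :
          Module.End k W × Module.End k W) ∈ corr ρ δ
      rw [e]
      exact gen_mem_corr ρ δ (g * h)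
    | zero =>
      show ((ρ g * 0, 0 * (((δ g : kˣ) : k) • ρ g⁻¹)) : Module.End k W × Module.End k W) ∈ _
      rw [mul_zero, zero_mul]
      exact Submodule.zero_mem _
    | add q q' _ _ hq hq' =>
      show ((ρ g * (q.1 + q'.1), (q.2 + q'.2) * (((δ g : kˣ) : k) • ρ g⁻¹)) :
          Module.End k W × Module.End k W) ∈ _
      rw [mul_add, add_mul]
      exact Submodule.add_mem _ hq hq'
    | smul c q _ hq =>
      show ((ρ g * (c • q.1), (c • q.2) * (((δ g : kˣ) : k) • ρ g⁻¹)) :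
          Module.End k W × Module.End k W) ∈ _
      rw [mul_smul_comm, smul_mul_assoc]
      exact Submodule.smul_mem _ c hq
  | zero =>
    show (((0 : Module.End k W) * q.1, q.2 * (0 : Module.End k W)) :
      Module.End k W × Module.End k W) ∈ _
    rw [mul_zero, zero_mul]
    exact Submodule.zero_mem _
  | add p p' _ _ hp hp' =>
    show (((p.1 + p'.1) * q.1, q.2 * (p.2 + p'.2)) : Module.End k W × Module.End k W) ∈ _
    rw [mul_add, add_mul]
    exact Submodule.add_mem _ hp hp'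
  | smul c p _ hp =>
    show (((c • p.1) * q.1, q.2 * (c • p.2)) : Module.End k W × Module.End k W) ∈ _
    rw [mul_smul_comm, smul_mul_assoc]
    exact Submodule.smul_mem _ c hp

theorem corr_add (hrel : ∀ g, ∃ t : k, ρ g * ρ g - t • ρ g + ((δ g : kˣ) : k) • 1 = 0)
    {p : Module.End k W × Module.End k W} (hp : p ∈ corr ρ δ) : ∃ s : k, p.1 + p.2 = s • 1 := by
  induction hp using Submodule.span_induction with
  | mem p hp =>
    obtain ⟨g, rfl⟩ := hp
    obtain ⟨t, ht⟩ := hrel g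
    refine ⟨t, ?_⟩
    have h1 : ρ g * ρ g⁻¹ = 1 := by rw [← map_mul, mul_inv_cancel, map_one]
    have h3 : (ρ g * ρ g - t • ρ g + ((δ g : kˣ) : k) • 1) * ρ g⁻¹ =
        ρ g - t • 1 + ((δ g : kˣ) : k) • ρ g⁻¹ := by
      rw [add_mul, sub_mul, mul_assoc, h1, mul_one, smul_mul_assoc, h1, smul_mul_assoc, one_mul]
    rw [ht, zero_mul] at h3
    show ρ g + ((δ g : kˣ) : k) • ρ g⁻¹ = t • 1
    calc ρ g + ((δ g : kˣ) : k) • ρ g⁻¹
        = (ρ g - t • 1 + ((δ g : kˣ) : k) • ρ g⁻¹) + t • 1 := by abel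
      _ = t • 1 := by rw [← h3, zero_add]
  | zero => exact ⟨0, by rw [zero_smul]; exact add_zero _⟩
  | add p q _ _ hp hq =>
    obtain ⟨s, hs⟩ := hp
    obtain ⟨s', hs'⟩ := hq
    refine ⟨s + s', ?_⟩
    rw [add_smul, ← hs, ← hs']
    show (p.1 + q.1) + (p.2 + q.2) = _
    abel
  | smul c p _ hp =>
    obtain ⟨s, hs⟩ := hp
    refine ⟨c * s, ?_⟩
    show c • p.1 + c • p.2 = _
    rw [← smul_add, hs, smul_smul]

theorem corr_quad (h2 : (2 : k) ≠ 0)
    (hrel : ∀ g, ∃ t : k, ρ g * ρ g - t • ρ g + ((δ g : kˣ) : k) • 1 = 0)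
    {p : Module.End k W × Module.End k W} (hp : p ∈ corr ρ δ) :
    ∃ s ν : k, p.1 * p.1 - s • p.1 + ν • 1 = 0 := by
  obtain ⟨s, hs⟩ := corr_add hrel hp
  obtain ⟨c, hc⟩ := corr_add hrel (corr_mul hp (corr_swap hp))
  refine ⟨s, 2⁻¹ * c, ?_⟩
  have h3 : p.1 * p.2 = (2⁻¹ * c) • 1 := by
    have h4 : (2 : k) • (p.1 * p.2) = c • 1 := by rw [two_smul]; exact hc
    rw [← smul_smul, ← h4, smul_smul, inv_mul_cancel₀ h2, one_smul]
  have h5 : p.2 = s • 1 - p.1 := by rw [← hs]; abel
  rw [h5, mul_sub, mul_smul_comm, mul_one] at h3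
  rw [← h3]
  abel

theorem exists_corr_of_mem_span {x : Module.End k W}
    (hx : x ∈ Submodule.span k (Set.range ρ)) : ∃ x', (x, x') ∈ corr ρ δ := by
  induction hx using Submodule.span_induction with
  | mem x hx =>
    obtain ⟨g, rfl⟩ := hx
    exact ⟨_, gen_mem_corr ρ δ g⟩
  | zero => exact ⟨0, Submodule.zero_mem _⟩
  | add x y _ _ hx hy =>
    obtain ⟨x', hx'⟩ := hx
    obtain ⟨y', hy'⟩ := hy
    exact ⟨x' + y', Submodule.add_mem _ hx' hy'⟩
  | smul c x _ hx =>
    obtain ⟨x', hx'⟩ := hx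
    exact ⟨c • x', Submodule.smul_mem _ c hx'⟩

/-- every element of the linear span of `ρ(Γ)` is killed by a monic quadratic polynomial -/
theorem quad_of_mem_span (h2 : (2 : k) ≠ 0)
    (hrel : ∀ g, ∃ t : k, ρ g * ρ g - t • ρ g + ((δ g : kˣ) : k) • 1 = 0)
    {x : Module.End k W} (hx : x ∈ Submodule.span k (Set.range ρ)) :
    ∃ s ν : k, x * x - s • x + ν • 1 = 0 := by
  obtain ⟨x', hx'⟩ := exists_corr_of_mem_span (δ := δ) hx
  exact corr_quad h2 hrel hx'

end Corr
/-! ### 3. an irreducible `W` has dimension at most two (Jacobson density + Schur) -/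

section Simple

variable {k : Type*} [Field k] {Γ : Type*} [Group Γ] {W : Type*} [AddCommGroup W] [Module k W]
  {ρ : Γ →* Module.End k W} {δ : Γ →* kˣ}

theorem adjoin_le_span (a : Module.End k W) (ha : a ∈ Algebra.adjoin k (Set.range ρ)) :
    a ∈ Submodule.span k (Set.range ρ) := by
  have h1 : Submonoid.closure (Set.range ρ) = MonoidHom.mrange ρ := by
    rw [← MonoidHom.coe_mrange, Submonoid.closure_eq]
  have h2 := Algebra.adjoin_eq_span (R := k) (s := Set.range ρ)
  rw [h1, MonoidHom.coe_mrange] at h2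
  rw [← h2]
  exact ha

theorem finrank_le_two [IsAlgClosed k] [FiniteDimensional k W] [Nontrivial W] (h2 : (2 : k) ≠ 0)
    (hrel : ∀ g, ∃ t : k, ρ g * ρ g - t • ρ g + ((δ g : kˣ) : k) • 1 = 0)
    (hsimple : ∀ U : Submodule k W, (∀ g, ∀ x ∈ U, ρ g x ∈ U) → U = ⊥ ∨ U = ⊤) :
    Module.finrank k W ≤ 2 := by
  classical
  let A : Subalgebra k (Module.End k W) := Algebra.adjoin k (Set.range ρ)
  have hA : ∀ g, ρ g ∈ A := fun g => Algebra.subset_adjoin ⟨g, rfl⟩
  have : IsSimpleModule A W := by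
    rw [isSimpleModule_iff]
    refine { exists_pair_ne := ⟨⊥, ⊤, bot_ne_top⟩, eq_bot_or_eq_top := fun U => ?_ }
    have hU : ∀ g, ∀ x ∈ U.restrictScalars k, ρ g x ∈ U.restrictScalars k := by
      intro g x hx
      have h3 : (⟨ρ g, hA g⟩ : A) • x ∈ U := U.smul_mem _ hx
      exact h3
    rcases hsimple (U.restrictScalars k) hU with h | h
    · left
      exact (Submodule.restrictScalars_eq_bot_iff k A W).1 h
    · right
      exact (Submodule.restrictScalars_eq_top_iff k A W).1 h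
  have hSchur := IsSimpleModule.algebraMap_end_bijective_of_isAlgClosed (A := A) (V := W) k
  by_contra hlt
  have h3 : 2 < Module.finrank k W := not_le.1 hlt
  let b := Module.finBasis k W
  let i0 : Fin (Module.finrank k W) := ⟨0, by omega⟩
  let i1 : Fin (Module.finrank k W) := ⟨1, by omega⟩
  let i2 : Fin (Module.finrank k W) := ⟨2, h3⟩
  have h01 : i0 ≠ i1 := by intro h; have := congrArg Fin.val h; simp [i0, i1] at this
  have h02 : i0 ≠ i2 := by intro h; have := congrArg Fin.val h; simp [i0, i2] at this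
  have h12 : i1 ≠ i2 := by intro h; have := congrArg Fin.val h; simp [i1, i2] at this
  let f0 : W →ₗ[k] W := b.constr k (fun i => if i = i0 then b i1 else if i = i1 then b i2 else 0)
  have hf0 : f0 (b i0) = b i1 := by
    rw [Module.Basis.constr_basis, if_pos rfl]
  have hf1 : f0 (b i1) = b i2 := by
    rw [Module.Basis.constr_basis, if_neg h01.symm, if_pos rfl]
  let f : Module.End (Module.End A W) W :=
    { toFun := f0
      map_add' := map_add f0
      map_smul' := fun e w => by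
        obtain ⟨c, rfl⟩ := hSchur.2 e
        rw [RingHom.id_apply, Module.End.smul_def, Module.End.smul_def,
          Module.algebraMap_end_apply, Module.algebraMap_end_apply, map_smul] }
  obtain ⟨r, hr⟩ := jacobson_density f {b i0, b i1}
  have hr0 : (r : Module.End k W) (b i0) = b i1 := by
    have := hr (b i0) (by simp)
    rw [← hf0]
    exact this.symm
  have hr1 : (r : Module.End k W) (b i1) = b i2 := by
    have := hr (b i1) (by simp)
    rw [← hf1]
    exact this.symm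
  obtain ⟨s, ν, hq⟩ := quad_of_mem_span (δ := δ) h2 hrel (adjoin_le_span _ r.2)
  have h4 := LinearMap.congr_fun hq (b i0)
  rw [LinearMap.add_apply, LinearMap.sub_apply, Module.End.mul_apply, LinearMap.smul_apply,
    LinearMap.smul_apply, hr0, hr1, Module.End.one_apply, LinearMap.zero_apply] at h4
  have h5 := congrArg (fun w => b.repr w i2) h4
  simp only [map_add, map_sub, map_smul, Module.Basis.repr_self, Finsupp.coe_add, Finsupp.coe_sub,
    Finsupp.coe_smul, Pi.add_apply, Pi.sub_apply, Pi.smul_apply, Finsupp.single_apply,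
    if_neg h12, if_neg h02, map_zero, Finsupp.coe_zero, Pi.zero_apply,
    smul_eq_mul, mul_zero, sub_zero, add_zero] at h5
  exact one_ne_zero h5

end Simple
/-! ### 4. dimension two: trace and determinant -/

section Two

variable {k : Type*} [Field k] {Γ : Type*} [Group Γ] {W : Type*} [AddCommGroup W] [Module k W]
  {ρ : Γ →* Module.End k W} {δ : Γ →* kˣ}

theorem charpoly_of_finrank_two [Module.Finite k W] (hfr : Module.finrank k W = 2)
    (f : Module.End k W) :
    LinearMap.charpoly f = X ^ 2 - C (LinearMap.trace k W f) * X + C (LinearMap.det f) := by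
  classical
  let b : Module.Basis (Fin 2) k W := Module.finBasisOfFinrankEq k W hfr
  rw [← LinearMap.charpoly_toMatrix f b, Matrix.charpoly_fin_two,
    LinearMap.trace_eq_matrix_trace k b f, LinearMap.det_toMatrix b f]

theorem smul_one_injective [Nontrivial W] {c : k} (hc : c • (1 : Module.End k W) = 0) : c = 0 := by
  obtain ⟨v, hv⟩ := exists_ne (0 : W)
  have h1 := LinearMap.congr_fun hc v
  rw [LinearMap.smul_apply, Module.End.one_apply, LinearMap.zero_apply] at h1
  exact (smul_eq_zero.1 h1).resolve_right hv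

theorem trace_det_of_not_scalar [Module.Finite k W] (hfr : Module.finrank k W = 2)
    (x : Module.End k W) (hx : ∀ c : k, x ≠ c • 1) (t d : k)
    (h : x * x - t • x + d • 1 = 0) : LinearMap.trace k W x = t ∧ LinearMap.det x = d := by
  have : Nontrivial W := Module.nontrivial_of_finrank_eq_succ hfr
  have hCH := LinearMap.aeval_self_charpoly x
  rw [charpoly_of_finrank_two hfr x, map_add, map_sub, map_mul, map_pow, aeval_X, aeval_C,
    aeval_C, Algebra.algebraMap_eq_smul_one, Algebra.algebraMap_eq_smul_one, smul_mul_assoc,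
    one_mul, pow_two] at hCH
  have h3 : (t - LinearMap.trace k W x) • x + (LinearMap.det x - d) • 1 = 0 := by
    calc (t - LinearMap.trace k W x) • x + (LinearMap.det x - d) • 1
        = (x * x - LinearMap.trace k W x • x + LinearMap.det x • 1) -
          (x * x - t • x + d • 1) := by rw [sub_smul, sub_smul]; abel
      _ = 0 := by rw [hCH, h, sub_zero]
  have h4 : t - LinearMap.trace k W x = 0 := by
    by_contra hne
    refine hx ((t - LinearMap.trace k W x)⁻¹ * (d - LinearMap.det x)) ?_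
    have h5 : (t - LinearMap.trace k W x) • x = (d - LinearMap.det x) • 1 := by
      rw [← sub_eq_zero, ← h3, sub_smul (LinearMap.det x) d, sub_smul d]
      abel
    rw [← smul_smul, ← h5, smul_smul, inv_mul_cancel₀ hne, one_smul]
  rw [h4, zero_smul, zero_add] at h3
  exact ⟨(sub_eq_zero.1 h4).symm, sub_eq_zero.1 (smul_one_injective h3)⟩

theorem trace_det_of_finrank_two [Module.Finite k W] (hfr : Module.finrank k W = 2)
    (hrel : ∀ g, ∃ t : k, ρ g * ρ g - t • ρ g + ((δ g : kˣ) : k) • 1 = 0)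
    (hsimple : ∀ U : Submodule k W, (∀ g, ∀ x ∈ U, ρ g x ∈ U) → U = ⊥ ∨ U = ⊤)
    (g : Γ) (t : k) (ht : ρ g * ρ g - t • ρ g + ((δ g : kˣ) : k) • 1 = 0) :
    LinearMap.trace k W (ρ g) = t ∧ LinearMap.det (ρ g) = ((δ g : kˣ) : k) := by
  have : Nontrivial W := Module.nontrivial_of_finrank_eq_succ hfr
  -- a non-scalar element
  have hns : ∃ h0 : Γ, ∀ c : k, ρ h0 ≠ c • 1 := by
    by_contra hcon
    have hall : ∀ h0 : Γ, ∃ c : k, ρ h0 = c • 1 := by
      intro h0
      by_contra hc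
      exact hcon ⟨h0, fun c hc' => hc ⟨c, hc'⟩⟩
    obtain ⟨v, hv⟩ := exists_ne (0 : W)
    have hU : ∀ g, ∀ x ∈ Submodule.span k {v}, ρ g x ∈ Submodule.span k {v} := by
      intro g x hx
      obtain ⟨c, hc⟩ := hall g
      rw [hc, LinearMap.smul_apply, Module.End.one_apply]
      exact Submodule.smul_mem _ c hx
    rcases hsimple _ hU with h | h
    · exact hv ((Submodule.span_singleton_eq_bot).1 h)
    · have h1 : Module.finrank k (Submodule.span k {v}) = 1 := finrank_span_singleton hv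
      rw [h, finrank_top, hfr] at h1
      exact absurd h1 (by norm_num)
  obtain ⟨h0, hh0⟩ := hns
  have hdet_ns : ∀ g' : Γ, (∀ c : k, ρ g' ≠ c • 1) →
      LinearMap.det (ρ g') = ((δ g' : kˣ) : k) := by
    intro g' hg'
    obtain ⟨t', ht'⟩ := hrel g'
    exact (trace_det_of_not_scalar hfr _ hg' t' _ ht').2
  by_cases hsc : ∃ α : k, ρ g = α • 1
  · obtain ⟨α, hα⟩ := hsc
    have hα0 : α ≠ 0 := by
      intro h0'
      have h1 : ρ g * ρ g⁻¹ = 1 := by rw [← map_mul, mul_inv_cancel, map_one]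
      rw [hα, h0', zero_smul, zero_mul] at h1
      exact zero_ne_one (α := Module.End k W) h1
    have hgh : ∀ c : k, ρ (g * h0) ≠ c • 1 := by
      intro c hc
      refine hh0 (α⁻¹ * c) ?_
      rw [map_mul, hα, smul_mul_assoc, one_mul] at hc
      rw [← smul_smul, ← hc, smul_smul, inv_mul_cancel₀ hα0, one_smul]
    have h1 := hdet_ns (g * h0) hgh
    rw [map_mul, map_mul, map_mul, hdet_ns h0 hh0, Units.val_mul] at h1
    have hdet : LinearMap.det (ρ g) = ((δ g : kˣ) : k) :=
      mul_right_cancel₀ (Units.ne_zero (δ h0)) h1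
    refine ⟨?_, hdet⟩
    have h2 : LinearMap.det (ρ g) = α ^ 2 := by
      rw [hα, LinearMap.det_smul, hfr, map_one, mul_one]
    have h3 : (α * α - t * α + ((δ g : kˣ) : k)) • (1 : Module.End k W) = 0 := by
      rw [hα] at ht
      rw [← ht, smul_mul_smul_comm, one_mul, smul_smul, add_smul, sub_smul]
    have h4 := smul_one_injective h3
    rw [← hdet, h2] at h4
    have h5 : α * (2 * α - t) = 0 := by rw [← h4]; ring
    have h6 : t = 2 * α := by
      rcases mul_eq_zero.1 h5 with h | h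
      · exact absurd h hα0
      · exact (sub_eq_zero.1 h).symm
    rw [hα, map_smul, LinearMap.trace_one, hfr, h6, smul_eq_mul, mul_comm]
    norm_num
  · have hg' : ∀ c : k, ρ g ≠ c • 1 := fun c hc => hsc ⟨c, hc⟩
    exact trace_det_of_not_scalar hfr _ hg' t _ ht

theorem charpoly_eq_of_finrank_two [Module.Finite k W] (hfr : Module.finrank k W = 2)
    (hrel : ∀ g, ∃ t : k, ρ g * ρ g - t • ρ g + ((δ g : kˣ) : k) • 1 = 0)
    (hsimple : ∀ U : Submodule k W, (∀ g, ∀ x ∈ U, ρ g x ∈ U) → U = ⊥ ∨ U = ⊤)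
    (g : Γ) (t : k) (ht : ρ g * ρ g - t • ρ g + ((δ g : kˣ) : k) • 1 = 0) :
    LinearMap.charpoly (ρ g) = X ^ 2 - C t * X + C ((δ g : kˣ) : k) := by
  obtain ⟨h1, h2⟩ := trace_det_of_finrank_two hfr hrel hsimple g t ht
  rw [charpoly_of_finrank_two hfr, h1, h2]

end Two
/-! ### 5. dimension one: the sum of the character and of its `δ`-dual -/

section One

variable {k : Type*} [Field k] {Γ : Type*} [Group Γ] {W : Type*} [AddCommGroup W] [Module k W]

theorem end_eq_smul_one_of_finrank_one (hfr : Module.finrank k W = 1) (f : Module.End k W) :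
    ∃ c : k, f = c • 1 := by
  obtain ⟨v, -, hv⟩ := (finrank_eq_one_iff' (K := k) (V := W)).1 hfr
  obtain ⟨c, hc⟩ := hv (f v)
  refine ⟨c, LinearMap.ext fun w => ?_⟩
  obtain ⟨d, rfl⟩ := hv w
  rw [map_smul, ← hc, LinearMap.smul_apply, Module.End.one_apply, smul_comm]

theorem end_comm_of_finrank_one (hfr : Module.finrank k W = 1) (a b : Module.End k W) :
    a * b = b * a := by
  obtain ⟨c, rfl⟩ := end_eq_smul_one_of_finrank_one hfr a
  rw [smul_mul_assoc, mul_smul_comm, one_mul, mul_one]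

/-- `ρ ⊕ δ ρ(·⁻¹)` on `W × W`, a representation as soon as `End W` is commutative -/
def doubleRep (ρ : Γ →* Module.End k W) (δ : Γ →* kˣ)
    (hcomm : ∀ a b : Module.End k W, a * b = b * a) : Γ →* Module.End k (W × W) where
  toFun g := (ρ g).prodMap (((δ g : kˣ) : k) • ρ g⁻¹)
  map_one' := by
    rw [inv_one, map_one, map_one, Units.val_one, one_smul]
    exact LinearMap.prodMap_one
  map_mul' g h := by
    rw [LinearMap.prodMap_mul, map_mul, map_mul, Units.val_mul, mul_inv_rev, map_mul,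
      smul_mul_smul_comm, hcomm (ρ h⁻¹)]

variable {ρ : Γ →* Module.End k W} {δ : Γ →* kˣ}

theorem doubleRep_apply (hcomm : ∀ a b : Module.End k W, a * b = b * a) (g : Γ) :
    doubleRep ρ δ hcomm g = (ρ g).prodMap (((δ g : kˣ) : k) • ρ g⁻¹) := rfl

theorem finrank_prod_self [Module.Finite k W] (hfr : Module.finrank k W = 1) :
    Module.finrank k (W × W) = 2 := by
  rw [Module.finrank_prod, hfr]

theorem charpoly_doubleRep [Module.Finite k W] (hfr : Module.finrank k W = 1)
    (hcomm : ∀ a b : Module.End k W, a * b = b * a)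
    (g : Γ) (t : k) (ht : ρ g * ρ g - t • ρ g + ((δ g : kˣ) : k) • 1 = 0) :
    LinearMap.charpoly (doubleRep ρ δ hcomm g) = X ^ 2 - C t * X + C ((δ g : kˣ) : k) := by
  have : Nontrivial W := Module.nontrivial_of_finrank_eq_succ hfr
  obtain ⟨c, hc⟩ := end_eq_smul_one_of_finrank_one hfr (ρ g)
  obtain ⟨c', hc'⟩ := end_eq_smul_one_of_finrank_one hfr (ρ g⁻¹)
  have h1 : c * c' = 1 := by
    have h2 : ρ g * ρ g⁻¹ = 1 := by rw [← map_mul, mul_inv_cancel, map_one]
    rw [hc, hc', smul_mul_smul_comm, one_mul] at h2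
    have h3 : (c * c' - 1) • (1 : Module.End k W) = 0 := by rw [sub_smul, h2, one_smul, sub_self]
    exact sub_eq_zero.1 (smul_one_injective h3)
  have h4 : c * c - t * c + ((δ g : kˣ) : k) = 0 := by
    have h3 : (c * c - t * c + ((δ g : kˣ) : k)) • (1 : Module.End k W) = 0 := by
      rw [hc] at ht
      rw [← ht, smul_mul_smul_comm, one_mul, smul_smul, add_smul, sub_smul]
    exact smul_one_injective h3
  have h5 : t = c + ((δ g : kˣ) : k) * c' := by
    have h6 : c' * (c * c - t * c + ((δ g : kˣ) : k)) = 0 := by rw [h4, mul_zero]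
    have h7 : c' * (c * c - t * c + ((δ g : kˣ) : k)) =
        (c * c') * c - t * (c * c') + ((δ g : kˣ) : k) * c' := by ring
    rw [h7, h1, one_mul, mul_one] at h6
    linear_combination -h6
  have htr : LinearMap.trace k (W × W) (doubleRep ρ δ hcomm g) = t := by
    rw [doubleRep_apply, LinearMap.trace_prodMap', hc, hc', map_smul, map_smul, map_smul,
      LinearMap.trace_one, hfr, h5]
    simp only [smul_eq_mul, Nat.cast_one, mul_one]
  have hdet : LinearMap.det (doubleRep ρ δ hcomm g) = ((δ g : kˣ) : k) := by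
    rw [doubleRep_apply, LinearMap.det_prodMap, hc, hc', smul_smul, LinearMap.det_smul,
      LinearMap.det_smul, hfr, map_one, pow_one, pow_one, mul_one, mul_one]
    calc c * (((δ g : kˣ) : k) * c') = ((δ g : kˣ) : k) * (c * c') := by ring
      _ = ((δ g : kˣ) : k) := by rw [h1, mul_one]
  rw [charpoly_of_finrank_two (finrank_prod_self hfr), htr, hdet]

end One

/-! ### 5'. stable complements when every operator is scalar on each factor of `M × N` -/

section Diag

variable {k : Type*} [Field k] {M N : Type*} [AddCommGroup M] [Module k M] [AddCommGroup N]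
  [Module k N]

theorem prodMap_smul_one_apply (c1 c2 : k) (x : M × N) :
    LinearMap.prodMap (c1 • (1 : Module.End k M)) (c2 • (1 : Module.End k N)) x =
      (c1 • x.1, c2 • x.2) := rfl

theorem exists_isCompl_of_diag {ι : Type*} (F : ι → Module.End k (M × N))
    (hF : ∀ i, ∃ c1 c2 : k, F i = LinearMap.prodMap (c1 • (1 : Module.End k M))
      (c2 • (1 : Module.End k N)))
    (U : Submodule k (M × N)) (hU : ∀ i, U.map (F i) ≤ U) :
    ∃ U' : Submodule k (M × N), IsCompl U U' ∧ ∀ i, U'.map (F i) ≤ U' := by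
  by_cases hsc : ∀ i, ∃ c : k, ∀ x, F i x = c • x
  · obtain ⟨U', hU'⟩ := Submodule.exists_isCompl U
    refine ⟨U', hU', fun i => ?_⟩
    obtain ⟨c, hc⟩ := hsc i
    rintro _ ⟨x, hx, rfl⟩
    rw [hc]
    exact U'.smul_mem c hx
  · obtain ⟨i0, hi0⟩ := not_forall.1 hsc
    obtain ⟨c1, c2, hc⟩ := hF i0
    have hne : c1 - c2 ≠ 0 := by
      intro h
      have h' : c1 = c2 := sub_eq_zero.1 h
      refine hi0 ⟨c1, fun x => ?_⟩
      rw [hc, prodMap_smul_one_apply, ← h']
      rfl
    have key1 : ∀ u ∈ U, ((u.1, 0) : M × N) ∈ U := by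
      intro u hu
      have h1 : F i0 u ∈ U := hU i0 ⟨u, hu, rfl⟩
      rw [hc, prodMap_smul_one_apply] at h1
      have h2 : ((c1 • u.1, c2 • u.2) : M × N) - c2 • u ∈ U := U.sub_mem h1 (U.smul_mem c2 hu)
      have h3 : ((u.1, 0) : M × N) = (c1 - c2)⁻¹ • (((c1 • u.1, c2 • u.2) : M × N) - c2 • u) := by
        refine Prod.ext ?_ ?_
        · show u.1 = (c1 - c2)⁻¹ • (c1 • u.1 - c2 • u.1)
          rw [← sub_smul, smul_smul, inv_mul_cancel₀ hne, one_smul]
        · show (0 : N) = (c1 - c2)⁻¹ • (c2 • u.2 - c2 • u.2)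
          rw [sub_self, smul_zero]
      rw [h3]
      exact U.smul_mem _ h2
    have key2 : ∀ u ∈ U, ((0, u.2) : M × N) ∈ U := by
      intro u hu
      have h1 : u - ((u.1, 0) : M × N) ∈ U := U.sub_mem hu (key1 u hu)
      have h2 : ((0, u.2) : M × N) = u - ((u.1, 0) : M × N) := by
        refine Prod.ext ?_ ?_
        · show (0 : M) = u.1 - u.1
          rw [sub_self]
        · show u.2 = u.2 - 0
          rw [sub_zero]
      rw [h2]
      exact h1
    have hUeq : U = (U.map (LinearMap.fst k M N)).prod (U.map (LinearMap.snd k M N)) := by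
      refine le_antisymm (fun u hu => ?_) ?_
      · exact Submodule.mem_prod.2 ⟨⟨u, hu, rfl⟩, ⟨u, hu, rfl⟩⟩
      · rintro ⟨a, b⟩ hab
        obtain ⟨⟨u, hu, hua⟩, ⟨u', hu', hub⟩⟩ := Submodule.mem_prod.1 hab
        have h1 := U.add_mem (key1 u hu) (key2 u' hu')
        have h2 : ((u.1, 0) : M × N) + ((0, u'.2) : M × N) = (a, b) := by
          refine Prod.ext ?_ ?_
          · show u.1 + 0 = a
            rw [add_zero]
            exact hua
          · show 0 + u'.2 = b
            rw [zero_add]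
            exact hub
        rw [← h2]
        exact h1
    obtain ⟨U1', h1'⟩ := Submodule.exists_isCompl (U.map (LinearMap.fst k M N))
    obtain ⟨U2', h2'⟩ := Submodule.exists_isCompl (U.map (LinearMap.snd k M N))
    refine ⟨U1'.prod U2', ?_, fun i => ?_⟩
    · rw [hUeq, isCompl_iff, disjoint_iff, codisjoint_iff, Submodule.prod_inf_prod,
        Submodule.prod_sup_prod, h1'.inf_eq_bot, h2'.inf_eq_bot, h1'.sup_eq_top, h2'.sup_eq_top]
      exact ⟨Submodule.prod_bot, Submodule.prod_top⟩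
    · obtain ⟨d1, d2, hd⟩ := hF i
      rintro _ ⟨x, hx, rfl⟩
      rw [hd, prodMap_smul_one_apply]
      obtain ⟨hx1, hx2⟩ := Submodule.mem_prod.1 hx
      exact Submodule.mem_prod.2 ⟨U1'.smul_mem d1 hx1, U2'.smul_mem d2 hx2⟩

end Diag

/-! ### 6. the statement for the consumer -/

section Main

variable {k : Type*} [Field k] {Γ : Type*} [Group Γ] {V : Type*} [AddCommGroup V] [Module k V]

/-- the restriction of `ρ` to a stable subspace -/
def restrictRep (ρ : Γ →* Module.End k V) (U : Submodule k V)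
    (hU : ∀ g, ∀ x ∈ U, ρ g x ∈ U) : Γ →* Module.End k U where
  toFun g := (ρ g).restrict (hU g)
  map_one' := by
    ext x
    rw [LinearMap.coe_restrict_apply, map_one]
    rfl
  map_mul' g h := by
    ext x
    rw [LinearMap.coe_restrict_apply, map_mul]
    rfl

theorem restrictRep_coe_apply (ρ : Γ →* Module.End k V) (U : Submodule k V)
    (hU : ∀ g, ∀ x ∈ U, ρ g x ∈ U) (g : Γ) (x : U) :
    ((restrictRep ρ U hU g x : U) : V) = ρ g x := rfl

theorem restrictRep_rel (ρ : Γ →* Module.End k V) (δ : Γ →* kˣ) (U : Submodule k V)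
    (hU : ∀ g, ∀ x ∈ U, ρ g x ∈ U) (g : Γ) (t : k)
    (ht : ρ g * ρ g - t • ρ g + ((δ g : kˣ) : k) • 1 = 0) :
    restrictRep ρ U hU g * restrictRep ρ U hU g - t • restrictRep ρ U hU g +
      ((δ g : kˣ) : k) • 1 = 0 := by
  ext x
  have h1 := LinearMap.congr_fun ht (x : V)
  rw [LinearMap.add_apply, LinearMap.sub_apply, Module.End.mul_apply, LinearMap.smul_apply,
    LinearMap.smul_apply, Module.End.one_apply, LinearMap.zero_apply] at h1
  rw [LinearMap.add_apply, LinearMap.sub_apply, Module.End.mul_apply, LinearMap.smul_apply,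
    LinearMap.smul_apply, Module.End.one_apply, LinearMap.zero_apply, Submodule.coe_add,
    Submodule.coe_sub, Submodule.coe_smul, Submodule.coe_smul, restrictRep_coe_apply,
    restrictRep_coe_apply, Submodule.coe_zero]
  exact h1

theorem restrictRep_simple (ρ : Γ →* Module.End k V) (W0 : Submodule k V)
    (hmin : Minimal (fun U : Submodule k V => U ≠ ⊥ ∧ ∀ g, ∀ x ∈ U, ρ g x ∈ U) W0)
    (U : Submodule k W0) (hU : ∀ g, ∀ x ∈ U, restrictRep ρ W0 hmin.1.2 g x ∈ U) :
    U = ⊥ ∨ U = ⊤ := by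
  by_cases hbot : U = ⊥
  · exact Or.inl hbot
  right
  obtain ⟨u, hu, hu0⟩ := Submodule.exists_mem_ne_zero_of_ne_bot hbot
  have h1 : U.map W0.subtype ≠ ⊥ := by
    intro h
    have h2 : (u : V) ∈ U.map W0.subtype := ⟨u, hu, rfl⟩
    rw [h, Submodule.mem_bot] at h2
    exact hu0 (Subtype.ext h2)
  have h2 : ∀ g, ∀ x ∈ U.map W0.subtype, ρ g x ∈ U.map W0.subtype := by
    rintro g x ⟨y, hy, rfl⟩
    exact ⟨restrictRep ρ W0 hmin.1.2 g y, hU g y hy, rfl⟩
  have h3 : W0 ≤ U.map W0.subtype := hmin.2 ⟨h1, h2⟩ (Submodule.map_subtype_le W0 U)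
  rw [Submodule.eq_top_iff']
  intro w
  obtain ⟨y, hy, hyw⟩ := h3 w.2
  have : y = w := Subtype.ext hyw
  rwa [← this]

end Main

/-- **The algebra claim of part B.**  `V` a non-zero finite-dimensional representation of `Γ`
over an algebraically closed field of characteristic `≠ 2`, `δ` a character, `S` a set of
elements whose powers meet every conjugacy class (as seen by `ρ` and `δ`), each `φ ∈ S` killed by
`X ^ 2 - t X + δ(φ)` on `V`.  Then there is a two-dimensional representation `ρ'` of `Γ`, trivial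
wherever `ρ` and `δ` both are, such that `ρ' g` has characteristic polynomial `X ^ 2 - t X + δ(g)`
whenever `ρ g` is killed by that polynomial on `V`. -/
theorem exists_rep_of_quadRel {k : Type} [Field k] [IsAlgClosed k] (h2 : (2 : k) ≠ 0)
    {Γ : Type*} [Group Γ] {V : Type} [AddCommGroup V] [Module k V] [FiniteDimensional k V]
    [Nontrivial V] (ρ : Γ →* Module.End k V) (δ : Γ →* kˣ) (S : Set Γ)
    (hS : ∀ g : Γ, ∃ φ ∈ S, ∃ (j : ℕ) (τ : Γ), ρ g = ρ (τ * φ ^ j * τ⁻¹) ∧ δ g = δ φ ^ j)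
    (hrel : ∀ φ ∈ S, ∃ t : k, ρ φ * ρ φ - t • ρ φ + ((δ φ : kˣ) : k) • 1 = 0) :
    ∃ (W : Type) (_ : AddCommGroup W) (_ : Module k W) (_ : Module.Finite k W)
      (ρ' : Γ →* Module.End k W),
      Module.finrank k W = 2 ∧ (∀ g, ρ g = 1 → δ g = 1 → ρ' g = 1) ∧
      (∀ U : Submodule k W, (∀ g, U.map (ρ' g) ≤ U) →
        ∃ U', IsCompl U U' ∧ ∀ g, U'.map (ρ' g) ≤ U') ∧
      ∀ (g : Γ) (t : k), ρ g * ρ g - t • ρ g + ((δ g : kˣ) : k) • 1 = 0 →
        LinearMap.charpoly (ρ' g) = X ^ 2 - C t * X + C ((δ g : kˣ) : k) := by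
  have hall := rel_all ρ δ S hS hrel
  obtain ⟨W0, hmin⟩ := exists_minimal_of_wellFoundedLT
    (fun U : Submodule k V => U ≠ ⊥ ∧ ∀ g, ∀ x ∈ U, ρ g x ∈ U)
    ⟨⊤, top_ne_bot, fun _ _ _ => Submodule.mem_top⟩
  have : Nontrivial W0 := Submodule.nontrivial_iff_ne_bot.2 hmin.1.1
  have hrel' : ∀ g, ∃ t : k, restrictRep ρ W0 hmin.1.2 g * restrictRep ρ W0 hmin.1.2 g -
      t • restrictRep ρ W0 hmin.1.2 g + ((δ g : kˣ) : k) • 1 = 0 := fun g =>
    (hall g).imp fun t ht => restrictRep_rel ρ δ W0 hmin.1.2 g t ht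
  have hsimple := restrictRep_simple ρ W0 hmin
  have hle := finrank_le_two h2 hrel' hsimple
  have hpos : 0 < Module.finrank k W0 := Module.finrank_pos
  have hone : ∀ g, ρ g = 1 → restrictRep ρ W0 hmin.1.2 g = 1 := by
    intro g hg
    ext x
    rw [restrictRep_coe_apply, hg]
    rfl
  rcases (by omega : Module.finrank k W0 = 2 ∨ Module.finrank k W0 = 1) with hfr | hfr
  · refine ⟨W0, inferInstance, inferInstance, inferInstance, restrictRep ρ W0 hmin.1.2, hfr,
      fun g hg _ => hone g hg, fun U hU => ?_, fun g t ht => ?_⟩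
    · have hU' : ∀ g, ∀ x ∈ U, restrictRep ρ W0 hmin.1.2 g x ∈ U :=
        fun g x hx => hU g ⟨x, hx, rfl⟩
      rcases hsimple U hU' with h | h
      · exact ⟨⊤, h ▸ isCompl_bot_top, fun g => le_top⟩
      · exact ⟨⊥, h ▸ isCompl_top_bot, fun g => by rw [Submodule.map_bot]⟩
    · exact charpoly_eq_of_finrank_two hfr hrel' hsimple g t
        (restrictRep_rel ρ δ W0 hmin.1.2 g t ht)
  · have hcomm := end_comm_of_finrank_one hfr
    refine ⟨W0 × W0, inferInstance, inferInstance, inferInstance,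
      doubleRep (restrictRep ρ W0 hmin.1.2) δ hcomm, finrank_prod_self hfr,
      fun g hg hδ => ?_, fun U hU => ?_, fun g t ht => ?_⟩
    · have hg' : ρ g⁻¹ = 1 := by
        calc ρ g⁻¹ = ρ g⁻¹ * ρ g := by rw [hg, mul_one]
          _ = 1 := by rw [← map_mul, inv_mul_cancel, map_one]
      rw [doubleRep_apply, hone g hg, hone g⁻¹ hg', hδ, Units.val_one, one_smul]
      exact LinearMap.prodMap_one
    · refine exists_isCompl_of_diag
        (fun g => doubleRep (restrictRep ρ W0 hmin.1.2) δ hcomm g) (fun g => ?_) U hU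
      obtain ⟨c, hc⟩ := end_eq_smul_one_of_finrank_one hfr (restrictRep ρ W0 hmin.1.2 g)
      obtain ⟨c', hc'⟩ := end_eq_smul_one_of_finrank_one hfr (restrictRep ρ W0 hmin.1.2 g⁻¹)
      exact ⟨c, ((δ g : kˣ) : k) * c', by rw [doubleRep_apply, hc, hc', smul_smul]⟩
    · exact charpoly_doubleRep hfr hcomm g t (restrictRep_rel ρ δ W0 hmin.1.2 g t ht)

/-- the same with the hypothesis on `S` in its simplest form: every `g` is seen by `ρ` and `δ` as
an element of `S` (Chebotarev in a finite quotient). -/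
theorem exists_rep_of_quadRel' {k : Type} [Field k] [IsAlgClosed k] (h2 : (2 : k) ≠ 0)
    {Γ : Type*} [Group Γ] {V : Type} [AddCommGroup V] [Module k V] [FiniteDimensional k V]
    [Nontrivial V] (ρ : Γ →* Module.End k V) (δ : Γ →* kˣ) (S : Set Γ)
    (hS : ∀ g : Γ, ∃ φ ∈ S, ρ g = ρ φ ∧ δ g = δ φ)
    (hrel : ∀ φ ∈ S, ∃ t : k, ρ φ * ρ φ - t • ρ φ + ((δ φ : kˣ) : k) • 1 = 0) :
    ∃ (W : Type) (_ : AddCommGroup W) (_ : Module k W) (_ : Module.Finite k W)
      (ρ' : Γ →* Module.End k W),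
      Module.finrank k W = 2 ∧ (∀ g, ρ g = 1 → δ g = 1 → ρ' g = 1) ∧
      (∀ U : Submodule k W, (∀ g, U.map (ρ' g) ≤ U) →
        ∃ U', IsCompl U U' ∧ ∀ g, U'.map (ρ' g) ≤ U') ∧
      ∀ (g : Γ) (t : k), ρ g * ρ g - t • ρ g + ((δ g : kˣ) : k) • 1 = 0 →
        LinearMap.charpoly (ρ' g) = X ^ 2 - C t * X + C ((δ g : kˣ) : k) := by
  refine exists_rep_of_quadRel h2 ρ δ S (fun g => ?_) hrel
  obtain ⟨φ, hφ, h1, h3⟩ := hS g
  refine ⟨φ, hφ, 1, 1, ?_, ?_⟩
  · rw [pow_one, one_mul, inv_one, mul_one]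
    exact h1
  · rw [pow_one]
    exact h3

/-- the three-conjunct form (without the stable-complement clause) -/
theorem exists_rep_of_quadRel_short {k : Type} [Field k] [IsAlgClosed k] (h2 : (2 : k) ≠ 0)
    {Γ : Type*} [Group Γ] {V : Type} [AddCommGroup V] [Module k V] [FiniteDimensional k V]
    [Nontrivial V] (ρ : Γ →* Module.End k V) (δ : Γ →* kˣ) (S : Set Γ)
    (hS : ∀ g : Γ, ∃ φ ∈ S, ∃ (j : ℕ) (τ : Γ), ρ g = ρ (τ * φ ^ j * τ⁻¹) ∧ δ g = δ φ ^ j)
    (hrel : ∀ φ ∈ S, ∃ t : k, ρ φ * ρ φ - t • ρ φ + ((δ φ : kˣ) : k) • 1 = 0) :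
    ∃ (W : Type) (_ : AddCommGroup W) (_ : Module k W) (_ : Module.Finite k W)
      (ρ' : Γ →* Module.End k W),
      Module.finrank k W = 2 ∧ (∀ g, ρ g = 1 → δ g = 1 → ρ' g = 1) ∧
      ∀ (g : Γ) (t : k), ρ g * ρ g - t • ρ g + ((δ g : kˣ) : k) • 1 = 0 →
        LinearMap.charpoly (ρ' g) = X ^ 2 - C t * X + C ((δ g : kˣ) : k) := by
  obtain ⟨W, i1, i2, i3, ρ', h1, h3, -, h4⟩ := exists_rep_of_quadRel h2 ρ δ S hS hrel
  exact ⟨W, i1, i2, i3, ρ', h1, h3, h4⟩

end Fermat.Agent.S48.B.QuadRel
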